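import Fermat.Agent.HM.AtkinLehner

/-!
# Atkin–Lehner elements at a prime exactly dividing the level

For `γ : SL(2, ℤ)` with `L ∣ γ₁₀` and `q ∣ γ₁₁` the matrix `γ (q 0; 0 1)` normalises `Γ₀(L q)`.
-/

set_option autoImplicit false

open UpperHalfPlane CongruenceSubgroup
open scoped MatrixGroups ModularForm
open P2MW.S_ModularForm_heckeT_slash_eq_self_of_mem_Gamma0.ModularForm.HeckeSlashInvariance

noncomputable section

namespace FermatAgent.BAD

open FermatAgent.HM (intGL intGL_mul intGL_congr intGL_coe val_intGL)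

local notation "Mat2Z" => Matrix (Fin 2) (Fin 2) ℤ

/-- `g (q 0; 0 1)` is an Atkin–Lehner matrix at `q` of level `L q`. -/
structure ALElt (q L : ℕ) (g : SL(2, ℤ)) : Prop where
  low : (L : ℤ) ∣ g 1 0
  diag : (q : ℤ) ∣ g 1 1

/-- The matrix `g (q 0; 0 1)`. -/
def alMat (q : ℕ) (g : SL(2, ℤ)) : Mat2Z := (g : Mat2Z) * !![(q : ℤ), 0; 0, 1]

variable {q L : ℕ} {g : SL(2, ℤ)}

/-- The Atkin–Lehner matrix has determinant `q`. -/
theorem det_alMat : (alMat q g).det = q := by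
  rw [alMat, Matrix.det_mul, g.det_coe, Matrix.det_fin_two_of]; ring

variable [NeZero q]

/-- Its determinant is nonzero. -/
theorem det_alMat_ne_zero : (alMat q g).det ≠ 0 := by
  rw [det_alMat]; exact_mod_cast NeZero.ne q

omit [NeZero q] in
/-- The matrix moves integral matrices with `L q ∣ c` past itself. -/
theorem ALElt.exists_conj (h : ALElt q L g) (X : Mat2Z) (hX : ((L * q : ℕ) : ℤ) ∣ X 1 0)
    (hq : L.Coprime q) :
    ∃ X' : Mat2Z, X'.det = X.det ∧ ((L * q : ℕ) : ℤ) ∣ X' 1 0 ∧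
      alMat q g * X = X' * alMat q g := by
  obtain ⟨c, hc⟩ := hX
  push_cast at hc ⊢
  set Y : Mat2Z := !![X 0 0, (q : ℤ) * X 0 1; (L : ℤ) * c, X 1 1]
  have hYdiag : (!![(q : ℤ), 0; 0, 1] : Mat2Z) * X = Y * !![(q : ℤ), 0; 0, 1] := by
    ext i j
    fin_cases i <;> fin_cases j <;> simp [Y, Matrix.mul_apply, Fin.sum_univ_two, hc] <;> ring
  refine ⟨(g : Mat2Z) * Y * (g : Mat2Z).adjugate, ?_, ?_, ?_⟩
  · simp only [Matrix.det_mul, Matrix.det_adjugate, g.det_coe, Y, Matrix.det_fin_two X,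
      Matrix.det_fin_two_of, one_pow, mul_one, one_mul, hc]
    ring
  · obtain ⟨a, ha⟩ := h.low
    obtain ⟨b, hb⟩ := h.diag
    have e : ((g : Mat2Z) * Y * (g : Mat2Z).adjugate) 1 0 =
        g 1 0 * X 0 0 * g 1 1 + g 1 1 * (L * c) * g 1 1 - g 1 0 * (q * X 0 1) * g 1 0 -
          g 1 1 * X 1 1 * g 1 0 := by
      simp [Y, Matrix.adjugate_fin_two, Matrix.mul_apply, Fin.sum_univ_two]; ring
    rw [e]
    exact (Nat.isCoprime_iff_coprime.mpr hq).mul_dvd
      ⟨a * X 0 0 * g 1 1 + g 1 1 * c * g 1 1 - a * (q * X 0 1) * g 1 0 - g 1 1 * X 1 1 * a, by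
        rw [ha]; ring⟩
      ⟨g 1 0 * X 0 0 * b + b * (L * c) * g 1 1 - g 1 0 * X 0 1 * g 1 0 - b * X 1 1 * g 1 0, by
        rw [hb]; ring⟩
  · rw [alMat, Matrix.mul_assoc ((g : Mat2Z) * Y), ← Matrix.mul_assoc (g : Mat2Z).adjugate,
      Matrix.adjugate_mul, g.det_coe, one_smul, Matrix.one_mul, Matrix.mul_assoc, hYdiag,
      Matrix.mul_assoc]

/-- The square is `q` times an element of `Γ₀(L q)`. -/
theorem ALElt.exists_sq (h : ALElt q L g) :
    ∃ δ : SL(2, ℤ), δ ∈ Gamma0 (L * q) ∧ alMat q g * alMat q g = (q : ℤ) • (δ : Mat2Z) := by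
  obtain ⟨a, ha⟩ := h.low
  obtain ⟨d, hd⟩ := h.diag
  have hdet := g.det_coe
  rw [Matrix.det_fin_two] at hdet
  let δ : Mat2Z := !![g 0 0 * g 0 0 * q + g 0 1 * g 1 0, g 0 1 * (g 0 0 + d);
    (L : ℤ) * a * (g 0 0 * q + g 1 1), g 0 1 * g 1 0 + q * d * d]
  have he : alMat q g * alMat q g = (q : ℤ) • δ := by
    ext i j
    fin_cases i <;> fin_cases j <;>
      simp [alMat, δ, Matrix.mul_apply, Fin.sum_univ_two, ha, hd] <;> ring
  have hδ : δ.det = 1 := by
    have h2 := congrArg Matrix.det he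
    rw [Matrix.det_mul, det_alMat, Matrix.det_smul, Fintype.card_fin] at h2
    refine mul_left_cancel₀ (pow_ne_zero 2 (show (q : ℤ) ≠ 0 by exact_mod_cast NeZero.ne q)) ?_
    rw [mul_one, ← h2]; ring
  refine ⟨⟨δ, hδ⟩, Gamma0_mem.mpr ((ZMod.intCast_zmod_eq_zero_iff_dvd _ _).mpr ?_), he⟩
  exact ⟨a * (g 0 0 + d), by simp [δ, hd]; ring⟩

variable (q g) in
/-- The matrix in `GL(2, ℝ)`. -/
def alGL : GL (Fin 2) ℝ := intGL (alMat q g) det_alMat_ne_zero

/-- It is `g` times `diag(q, 1)`. -/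
theorem alGL_eq : alGL q g = Matrix.SpecialLinearGroup.mapGL ℝ g *
    ModularForm.heckeDiagMatrix q := by
  refine Units.ext ?_
  rw [Units.val_mul, ModularForm.val_heckeDiagMatrix (NeZero.ne q)]
  ext i j
  fin_cases i <;> fin_cases j <;>
    simp [alGL, alMat, Matrix.mul_apply, Fin.sum_univ_two]

/-- It has positive determinant. -/
theorem det_alGL_pos : 0 < ((alGL q g).det : ℝ) := by
  have h : ((alGL q g : GL (Fin 2) ℝ) : Matrix (Fin 2) (Fin 2) ℝ) =
      (Int.castRingHom ℝ).mapMatrix (alMat q g) := by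
    ext i j; simp [alGL, RingHom.mapMatrix_apply]
  rw [Matrix.GeneralLinearGroup.val_det_apply, h, ← RingHom.map_det, det_alMat]
  simpa using NeZero.pos q

variable (h : ALElt q L g) (hq : L.Coprime q)
include h hq

end FermatAgent.BAD
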