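import Fermat.Agent.BAD.AL.Elt
import Fermat.Agent.PSEMI.Class.Sigma
import Fermat.Agent.ES.Hecke.Commute

/-!
# The Atkin–Lehner involution at `q` on parabolic characters of `Γ₀(L q)`

`L` divides an auxiliary level `M` prime to `q`; the Atkin matrix of `Γ(M)` gives an involution on
parabolic characters, compatible with the Hecke operators at primes not dividing the level.
-/

set_option autoImplicit false

open UpperHalfPlane CongruenceSubgroup
open scoped MatrixGroups ModularForm Manifold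
open P2MW.S_ModularForm_heckeT_slash_eq_self_of_mem_Gamma0.ModularForm.HeckeSlashInvariance
  (heckeRep)

noncomputable section

namespace FermatAgent.BAD

open FermatAgent.ES (IsTwist IsParChar parGroup charOp transferFun heckeChar)
open FermatAgent.PSEMI (IsLevel wForm wPar wForm_ne_zero)
open FermatAgent.HM (intGL intGL_mul intGL_congr intGL_coe repMat)
open Matrix.SpecialLinearGroup (mapGL)

local notation "Mat2Z" => Matrix (Fin 2) (Fin 2) ℤ

variable {q : ℕ} [hq : Fact q.Prime] {L M : ℕ} [NeZero M] (hM : M.Coprime q) (hLM : L ∣ M)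

/-- Slashing by an element of `SL(2, ℤ)` seen in `GL(2, ℝ)`. -/
theorem slash_mapGL_eq (k : ℤ) (f : ℍ → ℂ) (γ : SL(2, ℤ)) :
    f ∣[k] mapGL ℝ γ = f ∣[k] γ := rfl

omit hq [NeZero M] in
include hM hLM in
/-- `L` is prime to `q`. -/
theorem coprime_of_aux : L.Coprime q := hM.coprime_dvd_left hLM

omit hq in
/-- `Γ₀(L q) = Γ₀(L) ∩ Γ₀(q)` for `L` prime to `q`. -/
theorem mem_gamma0_mul_iff (h : L.Coprime q) {γ : SL(2, ℤ)} :
    γ ∈ Gamma0 (L * q) ↔ γ ∈ Gamma0 L ∧ γ ∈ Gamma0 q := by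
  rw [mem_Gamma0_dvd, mem_Gamma0_dvd, mem_Gamma0_dvd]
  push_cast
  exact ⟨fun hc => ⟨(dvd_mul_right _ _).trans hc, (dvd_mul_left _ _).trans hc⟩,
    fun hc => (Nat.isCoprime_iff_coprime.mpr h).mul_dvd hc.1 hc.2⟩

omit [NeZero M] in
include hM hLM in
/-- `Γ₀(L q) = Γ₀(L) ∩ Γ₀(q)`. -/
theorem isLevel_gamma0 : IsLevel q M (Gamma0 (L * q)) (Gamma0 L) :=
  mul_comm L q ▸ PSEMI.isLevel_Gamma0 (coprime_of_aux hM hLM) hLM

include hLM in
/-- The Atkin matrix is an Atkin–Lehner element of level `L q`. -/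
theorem alElt_atkin : ALElt q L (atkinMat hM) where
  low := by
    have h := ((Gamma_mem (N := M)).mp (atkinMat_mem hM)).2.2.1
    exact (Int.natCast_dvd_natCast.mpr hLM).trans
      ((ZMod.intCast_zmod_eq_zero_iff_dvd _ _).mp h)
  diag := (atkinMat_dvd hM).2

theorem diag_mul_dilHom (γ : Gamma0 q) :
    (!![(q : ℤ), 0; 0, 1] : Mat2Z) * ((γ : SL(2, ℤ)) : Mat2Z) =
      ((PSEMI.LevelMp.dilHom q γ : SL(2, ℤ)) : Mat2Z) * !![(q : ℤ), 0; 0, 1] := by
  obtain ⟨c, hc⟩ := mem_Gamma0_dvd.mp γ.2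
  have e : PSEMI.LevelMp.dilHom q γ 1 0 = c := by
    show (γ : SL(2, ℤ)) 1 0 / (q : ℤ) = c
    rw [hc, Int.mul_ediv_cancel_left _ (by exact_mod_cast hq.out.ne_zero)]
  ext i j
  fin_cases i <;> fin_cases j <;>
    simp [Matrix.mul_apply, Fin.sum_univ_two, hc, hq.out.ne_zero, mul_comm]

variable (Lv : IsLevel q M (Gamma0 (L * q)) (Gamma0 L))

/-- The involution of `Γ₀(L q)` is conjugation by the Atkin–Lehner matrix. -/
theorem wHom_spec (γ : Gamma0 (L * q)) :
    alMat q (atkinMat hM) * ((γ : SL(2, ℤ)) : Mat2Z) =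
      ((Lv.wHom hM γ : SL(2, ℤ)) : Mat2Z) * alMat q (atkinMat hM) := by
  rw [alMat, Matrix.mul_assoc, show ((γ : SL(2, ℤ)) : Mat2Z) =
    (((Lv.toG0 γ : Gamma0 q) : SL(2, ℤ)) : Mat2Z) from rfl, diag_mul_dilHom, ← Matrix.mul_assoc,
    ← Matrix.mul_assoc, ← Matrix.SpecialLinearGroup.coe_mul,
    ← Matrix.SpecialLinearGroup.coe_mul, Lv.coe_wHom hM, inv_mul_cancel_right]

theorem wForm_eq_slash (k : ℤ) (v : ℍ → ℂ) :
    wForm hM k v = ((q : ℂ) ^ (k - 1))⁻¹ • (v ∣[k] alGL q (atkinMat hM)) := by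
  rw [wForm, PSEMI.dilFun_eq_slash k, alGL_eq, SlashAction.slash_mul]
  rfl

theorem alGL_smul_slash (k : ℤ) (c : ℂ) (f : ℍ → ℂ) :
    (c • f) ∣[k] alGL q (atkinMat hM) = c • (f ∣[k] alGL q (atkinMat hM)) := by
  rw [ModularForm.smul_slash, UpperHalfPlane.σ, if_pos det_alGL_pos]
  rfl

include hM hLM in
/-- The Atkin–Lehner matrix squares to `q δ`. -/
theorem exists_atkin_sqSL : ∃ δ : Gamma0 (L * q),
    alMat q (atkinMat hM) * alMat q (atkinMat hM) = (q : ℤ) • ((δ : SL(2, ℤ)) : Mat2Z) := by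
  obtain ⟨δ, hδ, he⟩ := (alElt_atkin hM hLM).exists_sq (q := q)
  exact ⟨⟨δ, hδ⟩, he⟩

/-- The element `δ`. -/
def sqAtk : Gamma0 (L * q) := (exists_atkin_sqSL hM hLM).choose

theorem sqAtk_spec : alMat q (atkinMat hM) * alMat q (atkinMat hM) =
    (q : ℤ) • ((sqAtk hM hLM : SL(2, ℤ)) : Mat2Z) :=
  (exists_atkin_sqSL hM hLM).choose_spec

include hLM in
/-- The square of the transform is a constant. -/
theorem wForm_wForm {k : ℤ} {φ : Gamma0 (L * q) →* ℂˣ} {v : ℍ → ℂ}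
    (hv : IsTwist (Gamma0 (L * q)) k φ v) :
    wForm hM k (wForm hM k v) = (((q : ℂ) ^ k)⁻¹ * (φ (sqAtk hM hLM) : ℂ)) • v := by
  have hq0 : (q : ℂ) ≠ 0 := Nat.cast_ne_zero.mpr hq.out.ne_zero
  have hsc : ((q : ℤ) • (1 : Mat2Z)).det ≠ 0 := by
    rw [Matrix.det_smul, Matrix.det_one, mul_one]
    exact pow_ne_zero _ (by exact_mod_cast hq.out.ne_zero)
  have e : alGL q (atkinMat hM) * alGL q (atkinMat hM) =
      mapGL ℝ (sqAtk hM hLM : SL(2, ℤ)) * intGL ((q : ℤ) • (1 : Mat2Z)) hsc := by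
    rw [alGL, ← intGL_coe, ← intGL_mul, ← intGL_mul]
    refine intGL_congr ?_ _
    rw [sqAtk_spec hM hLM, Matrix.mul_smul, Matrix.mul_one]
  rw [wForm_eq_slash, wForm_eq_slash, alGL_smul_slash, ← SlashAction.slash_mul, e,
    SlashAction.slash_mul, slash_mapGL_eq, hv.slash,
    HM.slash_scalar_apply hq.out.ne_zero hsc, smul_smul, smul_smul]
  funext τ
  simp only [Pi.smul_apply, smul_eq_mul]
  have h1 : ((q : ℂ) ^ (k - 1))⁻¹ * ((q : ℂ) ^ (k - 1))⁻¹ * (q : ℂ) ^ (k - 2) =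
      ((q : ℂ) ^ k)⁻¹ := by
    rw [← zpow_neg, ← zpow_neg, ← zpow_add₀ hq0, ← zpow_add₀ hq0]
    congr 1
    ring
  rw [← h1]
  ring

include hLM in
theorem char_wHom_wHom {A : Type*} [CommMonoid A] (φ : Gamma0 (L * q) →* A)
    (γ : Gamma0 (L * q)) : φ (Lv.wHom hM (Lv.wHom hM γ)) = φ γ := by
  set δ := sqAtk hM hLM
  set X := alMat q (atkinMat hM)
  set γ2 := Lv.wHom hM (Lv.wHom hM γ)
  have h : (X * X) * ((γ : SL(2, ℤ)) : Mat2Z) = ((γ2 : SL(2, ℤ)) : Mat2Z) * (X * X) := by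
    rw [Matrix.mul_assoc, wHom_spec hM Lv γ, ← Matrix.mul_assoc, wHom_spec hM Lv,
      Matrix.mul_assoc]
  rw [sqAtk_spec hM hLM, Matrix.smul_mul, Matrix.mul_smul] at h
  have h2 : δ * γ = γ2 * δ := Subtype.ext (Subtype.ext
    (smul_right_injective Mat2Z (show (q : ℤ) ≠ 0 by exact_mod_cast hq.out.ne_zero) h))
  have h3 := congrArg φ h2
  rw [map_mul, map_mul, mul_comm (φ γ2)] at h3
  have hu : φ δ * φ δ⁻¹ = 1 := by rw [← map_mul, mul_inv_cancel, map_one]
  calc φ γ2 = φ γ2 * (φ δ * φ δ⁻¹) := by rw [hu, mul_one]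
    _ = (φ δ * φ γ) * φ δ⁻¹ := by rw [← mul_assoc, mul_comm (φ γ2), ← h3]
    _ = φ γ * (φ δ * φ δ⁻¹) := by rw [mul_comm (φ δ) (φ γ), mul_assoc]
    _ = φ γ := by rw [hu, mul_one]

/-- The involution on characters of exponent `n`. -/
def wAut (n : ℕ) : MulAut (parGroup (Gamma0 (L * q)) n) where
  toFun := wPar hM (isLevel_gamma0 hM hLM) n
  invFun := wPar hM (isLevel_gamma0 hM hLM) n
  left_inv _ := Subtype.ext (MonoidHom.ext fun γ =>
    char_wHom_wHom hM hLM (isLevel_gamma0 hM hLM) _ γ)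
  right_inv _ := Subtype.ext (MonoidHom.ext fun γ =>
    char_wHom_wHom hM hLM (isLevel_gamma0 hM hLM) _ γ)
  map_mul' _ _ := rfl

/-- The involution on characters is composition with the involution of the group. -/
theorem coe_wAut {n : ℕ} (φ : parGroup (Gamma0 (L * q)) n) :
    ((wAut hM hLM n φ : parGroup (Gamma0 (L * q)) n) : Gamma0 (L * q) →* ℂˣ) =
      (φ : Gamma0 (L * q) →* ℂˣ).comp ((isLevel_gamma0 hM hLM).wHom hM) := rfl

/-- The involution on characters squares to the identity. -/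
theorem wAut_wAut {n : ℕ} (φ : parGroup (Gamma0 (L * q)) n) :
    wAut hM hLM n (wAut hM hLM n φ) = φ := (wAut hM hLM n).symm_apply_apply φ

/-- The Atkin–Lehner transform of a form with character `φ` has character `w φ`. -/
theorem isTwist_wAut {n : ℕ} {k : ℤ} {φ : parGroup (Gamma0 (L * q)) n} {v : ℍ → ℂ}
    (hv : IsTwist (Gamma0 (L * q)) k (φ : Gamma0 (L * q) →* ℂˣ) v) :
    IsTwist (Gamma0 (L * q)) k (wAut hM hLM n φ : Gamma0 (L * q) →* ℂˣ) (wForm hM k v) :=
  (isLevel_gamma0 hM hLM).isTwist_wForm hM hv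

/-! ### Hecke operators -/

section Hecke

variable {ℓ : ℕ} [hℓ : Fact ℓ.Prime] (hℓN : ¬ ℓ ∣ L * q)

include hLM hℓN in
/-- The Atkin–Lehner matrix carries each Hecke representative at `ℓ` to an element of the group
times a representative. -/
theorem exists_move (x : OnePoint (ZMod ℓ)) : ∃ γ : Gamma0 (L * q), ∃ z : OnePoint (ZMod ℓ),
    alMat q (atkinMat hM) * repMat ℓ x =
      ((γ : SL(2, ℤ)) : Mat2Z) * repMat ℓ z * alMat q (atkinMat hM) := by
  have h10 : ((L * q : ℕ) : ℤ) ∣ repMat ℓ x 1 0 := by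
    induction x using OnePoint.rec <;> simp
  obtain ⟨A', hd, hc, he⟩ :=
    (alElt_atkin hM hLM).exists_conj _ h10 (coprime_of_aux hM hLM)
  obtain ⟨γ, z, rfl⟩ := HM.exists_eq_mul_repMat hℓN A' (hd.trans (HM.det_repMat x)) hc
  exact ⟨γ, z, he⟩

/-- The permutation of the representatives. -/
def movePerm (x : OnePoint (ZMod ℓ)) : OnePoint (ZMod ℓ) :=
  (exists_move hM hLM hℓN x).choose_spec.choose

/-- The factor. -/
def moveElt (x : OnePoint (ZMod ℓ)) : Gamma0 (L * q) := (exists_move hM hLM hℓN x).choose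

/-- The defining relation of the permutation of representatives. -/
theorem move_spec (x : OnePoint (ZMod ℓ)) :
    alMat q (atkinMat hM) * repMat ℓ x = ((moveElt hM hLM hℓN x : SL(2, ℤ)) : Mat2Z) *
      repMat ℓ (movePerm hM hLM hℓN x) * alMat q (atkinMat hM) :=
  (exists_move hM hLM hℓN x).choose_spec.choose_spec

theorem movePerm_injective : Function.Injective (movePerm hM hLM hℓN) := by
  intro x y hxy
  have hx := move_spec hM hLM hℓN x
  have hy := move_spec hM hLM hℓN y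
  rw [hxy] at hx
  set X := alMat q (atkinMat hM)
  set γ := moveElt hM hLM hℓN x
  set δ := moveElt hM hLM hℓN y
  set Lv := isLevel_gamma0 hM hLM
  set δ' := Lv.wHom hM (γ * δ⁻¹)
  have h1 : X * repMat ℓ x = ((γ * δ⁻¹ : Gamma0 (L * q)) : SL(2, ℤ)).1 * (X * repMat ℓ y) := by
    rw [hx, hy, ← Matrix.mul_assoc, ← Matrix.mul_assoc, ← Matrix.SpecialLinearGroup.coe_mul,
      ← Subgroup.coe_mul, inv_mul_cancel_right]
  have h2 : X * (X * repMat ℓ x) = ((δ' : SL(2, ℤ)) : Mat2Z) * (X * (X * repMat ℓ y)) := by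
    rw [h1, ← Matrix.mul_assoc X, wHom_spec hM Lv, Matrix.mul_assoc]
  rw [← Matrix.mul_assoc X X, ← Matrix.mul_assoc X X, sqAtk_spec hM hLM, Matrix.smul_mul,
    Matrix.smul_mul, Matrix.mul_smul] at h2
  have h3 := smul_right_injective Mat2Z
    (show (q : ℤ) ≠ 0 by exact_mod_cast hq.out.ne_zero) h2
  set s : SL(2, ℤ) := (sqAtk hM hLM : SL(2, ℤ))
  refine HM.repMat_unique (γ := s⁻¹ * (δ' : SL(2, ℤ)) * s) ?_
  have h4 := congrArg (fun X => ((s⁻¹ : SL(2, ℤ)) : Mat2Z) * X) h3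
  simp only [← Matrix.mul_assoc, ← Matrix.SpecialLinearGroup.coe_mul, inv_mul_cancel,
    Matrix.SpecialLinearGroup.coe_one, Matrix.one_mul] at h4
  rw [h4, mul_assoc s⁻¹]

/-- The value of a character on the factors moving the representatives. -/
def moveVal (φ : Gamma0 (L * q) →* ℂˣ) : ℂ := ∏ x, (φ (moveElt hM hLM hℓN x) : ℂ)

/-- The product of the values on the moving factors is nonzero. -/
theorem moveVal_ne_zero (φ : Gamma0 (L * q) →* ℂˣ) : moveVal hM hLM hℓN φ ≠ 0 :=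
  Finset.prod_ne_zero_iff.mpr fun _ _ => Units.ne_zero _

include hLM in
/-- The transfer commutes with the Atkin–Lehner transform, up to a root of unity. -/
theorem transferFun_wForm {k : ℤ} {φ : Gamma0 (L * q) →* ℂˣ} {v : ℍ → ℂ}
    (hv : IsTwist (Gamma0 (L * q)) k φ v) :
    transferFun (Period.transferDataT hℓN) k (wForm hM k v) =
      moveVal hM hLM hℓN φ • wForm hM (k * Fintype.card (OnePoint (ZMod ℓ)))
        (transferFun (Period.transferDataT hℓN) k v) := by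
  classical
  have hq0 : (q : ℂ) ≠ 0 := Nat.cast_ne_zero.mpr hq.out.ne_zero
  set D := Period.transferDataT hℓN
  set G := alGL q (atkinMat hM)
  set γ := moveElt hM hLM hℓN
  set π := Equiv.ofBijective _ (Finite.injective_iff_bijective.mp (movePerm_injective hM hLM hℓN))
  have hsl : ∀ x, (v ∣[k] G) ∣[k] D.rep x = (φ (γ x) : ℂ) • ((v ∣[k] D.rep (π x)) ∣[k] G) := by
    intro x
    have hrep : ∀ y, D.rep y = intGL (repMat ℓ y) (HM.det_repMat_ne_zero y) :=
      fun y => (HM.intGL_repMat y).symm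
    have e : G * D.rep x = mapGL ℝ (γ x : SL(2, ℤ)) * D.rep (π x) * G := by
      rw [hrep, hrep, show G = intGL (alMat q (atkinMat hM)) det_alMat_ne_zero from rfl,
        ← intGL_coe, ← intGL_mul, ← intGL_mul, ← intGL_mul]
      exact intGL_congr (move_spec hM hLM hℓN x) _
    rw [← SlashAction.slash_mul, e, SlashAction.slash_mul, SlashAction.slash_mul,
      slash_mapGL_eq, hv.slash,
      show (fun τ => (φ (γ x) : ℂ) * v τ) = (φ (γ x) : ℂ) • v from rfl, ModularForm.smul_slash,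
      UpperHalfPlane.σ,
      if_pos (show 0 < ((D.rep (π x)).det : ℝ) from D.det_pos _), ModularForm.smul_slash,
      UpperHalfPlane.σ, if_pos det_alGL_pos]
    rfl
  set c0 : ℂ := ((q : ℂ) ^ (k - 1))⁻¹
  have hc0 : c0 ≠ 0 := inv_ne_zero (zpow_ne_zero _ hq0)
  set card := Fintype.card (OnePoint (ZMod ℓ))
  set c1 : ℂ := ((q : ℂ) ^ (k * card - 1))⁻¹
  have hc1 : c1 ≠ 0 := inv_ne_zero (zpow_ne_zero _ hq0)
  set b : ℂ := (q : ℂ) ^ ((card : ℤ) - 1)
  have hb : b ≠ 0 := zpow_ne_zero _ hq0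
  have hdet : (G.det : ℝ) = q := by
    have h : (G : Matrix (Fin 2) (Fin 2) ℝ) =
        (Int.castRingHom ℝ).mapMatrix (alMat q (atkinMat hM)) := by
      ext i j; simp [G, alGL, RingHom.mapMatrix_apply]
    rw [Matrix.GeneralLinearGroup.val_det_apply, h, ← RingHom.map_det, det_alMat]
    simp
  have hprod : (∏ x, v ∣[k] D.rep x) ∣[k * card] G = b • ∏ x, (v ∣[k] D.rep x) ∣[k] G := by
    rw [show card = Finset.univ.card from rfl, ModularForm.prod_slash, hdet, Nat.abs_cast]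
    funext τ
    simp only [Pi.smul_apply, smul_eq_mul, Complex.real_smul, b, card, Finset.card_univ]
    push_cast
    rfl
  have hscale : c0 ^ card = b * c1 := by
    simp only [c0, b, c1, ← zpow_neg, ← zpow_natCast, ← zpow_mul, ← zpow_add₀ hq0]
    congr 1
    ring
  rw [wForm_eq_slash, wForm_eq_slash, transferFun, transferFun, hprod]
  funext τ
  simp only [Finset.prod_apply, Pi.smul_apply, smul_eq_mul]
  have hterm : ∀ x, ((c0 • (v ∣[k] G)) ∣[k] D.rep x) τ =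
      c0 * ((φ (γ x) : ℂ) * ((v ∣[k] D.rep (π x)) ∣[k] G) τ) := fun x => by
    rw [ModularForm.smul_slash, UpperHalfPlane.σ,
      if_pos (show 0 < ((D.rep x).det : ℝ) from D.det_pos _)]
    simp [hsl]
  simp only [G, c0] at hterm ⊢
  simp only [hterm, Finset.prod_mul_distrib, Finset.prod_const, Finset.card_univ]
  rw [Equiv.prod_comp π fun x => ((v ∣[k] D.rep x) ∣[k] alGL q (atkinMat hM)) τ]
  rw [show ((q : ℂ) ^ (k - 1))⁻¹ ^ Fintype.card (OnePoint (ZMod ℓ)) = b * c1 from hscale, moveVal]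
  simp only [γ, c1, card]
  ring

include hLM hℓN in
/-- `T_ℓ` commutes with the involution. -/
theorem heckeChar_comp_wHom {n : ℕ} [NeZero n] (φ : parGroup (Gamma0 (L * q)) n) :
    heckeChar (L * q) hℓ.out (wAut hM hLM n φ : Gamma0 (L * q) →* ℂˣ) =
      (heckeChar (L * q) hℓ.out (φ : Gamma0 (L * q) →* ℂˣ)).comp
        ((isLevel_gamma0 hM hLM).wHom hM) := by
  have : NeZero ℓ := ⟨hℓ.out.ne_zero⟩
  have : NeZero L := ⟨fun h => NeZero.ne M (Nat.eq_zero_of_zero_dvd (h ▸ hLM))⟩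
  have : NeZero (L * q) := ⟨mul_ne_zero (NeZero.ne L) hq.out.ne_zero⟩
  rw [ES.heckeChar_of_not_dvd hℓN, ES.heckeChar_of_not_dvd hℓN]
  set D := Period.transferDataT hℓN
  have hG := ES.goodLevel_Gamma0 (L * q)
  have hv := ES.isTwist_twistEis φ.2.1 φ.2.2
  have hv0 := ES.twistEis_ne_zero φ.2.1 φ.2.2 hG.neg_mem
  set v := ES.twistEis (φ : Gamma0 (L * q) →* ℂˣ)
  have hT := (isTwist_wAut hM hLM hv).transfer D (ES.transferDataT_int hℓN)
  have hT' := (isLevel_gamma0 hM hLM).isTwist_wForm hM (hv.transfer D (ES.transferDataT_int hℓN))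
  rw [transferFun_wForm hM hLM hℓN hv] at hT
  refine hT.mult_unique (hT'.smul _) fun h0 => ?_
  have hne : transferFun D 4 v ≠ 0 := ES.transferFun_ne_zero D hv.mdiff hv0
  exact wForm_ne_zero hM hne ((smul_eq_zero.mp h0).resolve_left (moveVal_ne_zero hM hLM hℓN _))

end Hecke

end FermatAgent.BAD
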