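import Fermat.Agent.ES.Hecke.Commute

/-!
# Conjugate forms

Forms whose expansions at `∞` correspond under a field automorphism.
-/

set_option autoImplicit false

open UpperHalfPlane CongruenceSubgroup
open scoped MatrixGroups ModularForm Manifold
open ModularForm (heckeDiagMatrix heckeMatrix)

noncomputable section

namespace FermatAgent.BAD

open FermatAgent.ES (HasExp IsTwist IsParChar GoodLevel parGroup conjChar transferFun transferConst
  hasExp_transferT)

/-- `f'` is the conjugate of `f`. -/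
def SConj (σ : ℂ ≃+* ℂ) (f f' : ℍ → ℂ) : Prop :=
  ∃ c : PowerSeries ℂ, HasExp 1 f c ∧ HasExp 1 f' (c.map (σ : ℂ →+* ℂ))

variable {σ : ℂ ≃+* ℂ} {f f' g g' : ℍ → ℂ}

/-- A form has at most one conjugate. -/
theorem SConj.unique (h : SConj σ f f') (h' : SConj σ f g) : f' = g := by
  obtain ⟨c, hc, hc'⟩ := h
  obtain ⟨d, hd, hd'⟩ := h'
  rw [hd.series_unique hc] at hd'
  exact hc'.eq_of_series hd'

/-- The conjugate of a product is the product of the conjugates. -/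
theorem SConj.mul (h : SConj σ f f') (h' : SConj σ g g') : SConj σ (f * g) (f' * g') := by
  obtain ⟨c, hc, hc'⟩ := h
  obtain ⟨d, hd, hd'⟩ := h'
  exact ⟨c * d, hc.mul hd, by rw [map_mul]; exact hc'.mul hd'⟩

/-- The conjugate of a power is the power of the conjugate. -/
theorem SConj.pow (h : SConj σ f f') (k : ℕ) : SConj σ (f ^ k) (f' ^ k) := by
  obtain ⟨c, hc, hc'⟩ := h
  exact ⟨c ^ k, hc.pow k, by rw [map_pow]; exact hc'.pow k⟩

/-- The conjugate of a multiple. -/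
theorem SConj.smul (a : ℂ) (h : SConj σ f f') : SConj σ (a • f) (σ a • f') := by
  obtain ⟨c, hc, hc'⟩ := h
  refine ⟨PowerSeries.C a * c, hc.smul a, ?_⟩
  rw [map_mul, PowerSeries.map_C]
  exact hc'.smul (σ a)

/-- The conjugate of a nonzero form is nonzero. -/
theorem SConj.ne_zero (h : SConj σ f f') (hf : f ≠ 0) : f' ≠ 0 := by
  obtain ⟨c, hc, hc'⟩ := h
  intro h0
  have h1 : c.map (σ : ℂ →+* ℂ) = 0 := hc'.series_unique (h0 ▸ HasExp.zero)
  have h2 : c = 0 := PowerSeries.map_injective (σ : ℂ →+* ℂ) (RingHom.injective _)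
    (h1.trans (map_zero _).symm)
  exact hf ((h2 ▸ hc).eq_of_series HasExp.zero)

/-- Raising the width. -/
theorem hasExp_widen {r : ℕ} (hr : r ≠ 0) {c : PowerSeries ℂ} (h : HasExp 1 f c) :
    HasExp r f (PowerSeries.expand r hr c) := by
  have := h.expand hr
  rwa [mul_one] at this

/-- Conjugate forms have conjugate expansions of every width. -/
theorem SConj.at_level (h : SConj σ f f') {r : ℕ} (hr : r ≠ 0) :
    ∃ c : PowerSeries ℂ, HasExp r f c ∧ HasExp r f' (c.map (σ : ℂ →+* ℂ)) := by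
  obtain ⟨c, hc, hc'⟩ := h
  exact ⟨_, hasExp_widen hr hc, by rw [PowerSeries.map_expand]; exact hasExp_widen hr hc'⟩

variable {Γ : Subgroup SL(2, ℤ)} (hT : ModularGroup.T ∈ Γ) {k k' : ℤ} {φ φ' : Γ →* ℂˣ}

include hT in
/-- Conjugate expansions of a higher width descend. -/
theorem SConj.of_level {r : ℕ} [NeZero r] (hφ : IsParChar Γ φ) (hf : IsTwist Γ k φ f)
    (hφ' : IsParChar Γ φ') (hf' : IsTwist Γ k' φ' f') {c : PowerSeries ℂ} (hc : HasExp r f c)
    (hc' : HasExp r f' (c.map (σ : ℂ →+* ℂ))) : SConj σ f f' := by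
  have h1 := ES.hasExp_one_twist hT hφ hf
  have h1' := ES.hasExp_one_twist hT hφ' hf'
  refine ⟨_, h1, ?_⟩
  suffices e : qExpansion ((1 : ℕ) : ℝ) f' =
      (qExpansion ((1 : ℕ) : ℝ) f).map (σ : ℂ →+* ℂ) by rw [← e]; exact h1'
  have h := (hasExp_widen (NeZero.ne r) h1').series_unique hc'
  rw [hc.series_unique (hasExp_widen (NeZero.ne r) h1), PowerSeries.map_expand] at h
  exact PowerSeries.ext fun e => by
    have := congrArg (PowerSeries.coeff (r * e)) h
    rwa [PowerSeries.coeff_expand_mul, PowerSeries.coeff_expand_mul] at this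

section Level

variable {N : ℕ} [NeZero N] (hG : GoodLevel N Γ) {n : ℕ} [NeZero n]

include hG in
/-- Every character has a conjugate pair of forms. -/
theorem exists_conj_pair (σ : ℂ ≃+* ℂ) (φ : parGroup Γ n) :
    ∃ (i : ℕ) (v v' : ℍ → ℂ), IsTwist Γ ((2 * i : ℕ) : ℤ) (φ : Γ →* ℂˣ) v ∧ v ≠ 0 ∧
      IsTwist Γ ((2 * i : ℕ) : ℤ) (conjChar hG σ φ : Γ →* ℂˣ) v' ∧ SConj σ v v' := by
  obtain ⟨i, v, v', c, hv, hv0, hv', -, hc, hc'⟩ := ES.conjChar_spec hG σ φ
  exact ⟨i, v, v', hv, hv0, hv',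
    SConj.of_level hG.T_mem φ.2.2 hv (conjChar hG σ φ).2.2 hv' hc hc'⟩

include hG in
/-- Conjugate forms have conjugate characters. -/
theorem SConj.conjChar_eq {i : ℕ} {φ φ' : parGroup Γ n}
    (hf : IsTwist Γ ((2 * i : ℕ) : ℤ) (φ : Γ →* ℂˣ) f) (hf0 : f ≠ 0)
    (hf' : IsTwist Γ ((2 * i : ℕ) : ℤ) (φ' : Γ →* ℂˣ) f') (h : SConj σ f f') :
    conjChar hG σ φ = φ' := by
  obtain ⟨c, hc, hc'⟩ := h.at_level (r := 12 * N) (NeZero.ne _)
  exact ES.conjChar_eq hG (ES.IsConjTwist.mk_of hf hf0 hf' hc hc')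

end Level

/-- The normalising constant of the transfer is nonzero. -/
theorem transferConst_ne_zero {ℓ : ℕ} (hℓ : ℓ ≠ 0) (i : ℕ) : transferConst ℓ i ≠ 0 := by
  have h : (ℓ : ℂ) ≠ 0 := Nat.cast_ne_zero.mpr hℓ
  exact mul_ne_zero (inv_ne_zero (zpow_ne_zero _ h)) (pow_ne_zero _ h)

/-- The normalised transfer preserves conjugate pairs. -/
theorem SConj.transfer {N : ℕ} {ℓ : ℕ} [hℓ : Fact ℓ.Prime] (hℓN : ¬ ℓ ∣ N) {i : ℕ}
    {φ φ' : Gamma0 N →* ℂˣ} (hφ : IsParChar (Gamma0 N) φ) (hφ' : IsParChar (Gamma0 N) φ')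
    (hf : IsTwist (Gamma0 N) ((2 * i : ℕ) : ℤ) φ f)
    (hf' : IsTwist (Gamma0 N) ((2 * i : ℕ) : ℤ) φ' f') (h : SConj σ f f') :
    SConj σ (transferConst ℓ i • transferFun (Period.transferDataT hℓN) ((2 * i : ℕ) : ℤ) f)
      (transferConst ℓ i • transferFun (Period.transferDataT hℓN) ((2 * i : ℕ) : ℤ) f') := by
  have : NeZero ℓ := ⟨hℓ.out.ne_zero⟩
  obtain ⟨c, hc, hc'⟩ := h
  set D := Period.transferDataT hℓN
  refine SConj.of_level (ES.goodLevel_Gamma0 N).T_mem (r := ℓ) (ES.isParChar_charOp D hφ)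
    ((hf.transfer D (ES.transferDataT_int hℓN)).smul _) (ES.isParChar_charOp D hφ')
    ((hf'.transfer D (ES.transferDataT_int hℓN)).smul _) (hasExp_transferT hℓN i hc) ?_
  rw [map_mul, PowerSeries.map_expand, PowerSeries.map_expand, ES.map_prodShift]
  exact hasExp_transferT hℓN i hc'

end FermatAgent.BAD
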