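import Fermat.Agent.BAD.AL.Invol
import Fermat.Agent.BAD.AL.SConj

/-!
# The constant by which conjugation fails to commute with the Atkin–Lehner transform

For an automorphism `σ` and a parabolic character `φ` of `Γ₀(L q)` the conjugate of `W v` is
`κ` times `W` of the conjugate of `v`, for a root of unity `κ` depending only on `φ`.
-/

set_option autoImplicit false

open UpperHalfPlane CongruenceSubgroup
open scoped MatrixGroups ModularForm Manifold

noncomputable section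

namespace FermatAgent.BAD

open FermatAgent.ES (HasExp HasLExp IsTwist IsParChar parGroup conjChar GoodLevel GalRel heckeChar
  transferFun charOp transferConst)
open FermatAgent.PSEMI (IsLevel wForm wForm_ne_zero)

/-- The Atkin–Lehner transform is linear in the form. -/
theorem wForm_smul' {q : ℕ} [Fact q.Prime] {M : ℕ} [NeZero M] (hM : M.Coprime q) (k : ℤ) (a : ℂ)
    (v : ℍ → ℂ) : wForm hM k (a • v) = a • wForm hM k v := by
  rw [wForm, wForm, ModularForm.SL_smul_slash]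
  funext τ
  rfl

/-- The transform of a power is the power of the transform. -/
theorem wForm_pow {q : ℕ} [Fact q.Prime] {M : ℕ} [NeZero M] (hM : M.Coprime q) (k : ℤ)
    (v : ℍ → ℂ) (j : ℕ) : wForm hM ((j + 1 : ℕ) * k) (v ^ (j + 1)) = wForm hM k v ^ (j + 1) := by
  induction j with
  | zero => simp
  | succ j ih =>
    rw [pow_succ v, pow_succ (wForm hM k v), Nat.cast_succ, add_mul, one_mul, PSEMI.wForm_mul, ih]

variable {q : ℕ} [hq : Fact q.Prime] {L M : ℕ} [NeZero M] [NeZero L] (hM : M.Coprime q)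
  (hLM : L ∣ M) (hM12 : M ∣ 12 * L) {n : ℕ} [NeZero n]

omit hq [NeZero M] [NeZero L] in
include hM12 in
theorem qM_dvd : q * M ∣ 12 * (L * q) := by
  rw [← mul_assoc, mul_comm q M]
  exact mul_dvd_mul_right hM12 q

include hLM hM12 in
/-- The conjugate of the transform is proportional to the transform of the conjugate. -/
theorem exists_wForm_conj {σ : ℂ ≃+* ℂ} {φ φ' : parGroup (Gamma0 (L * q)) n} {i : ℕ}
    {v v' : ℍ → ℂ} (hv : IsTwist (Gamma0 (L * q)) ((2 * i : ℕ) : ℤ) (φ : Gamma0 (L * q) →* ℂˣ) v)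
    (hv0 : v ≠ 0)
    (hv' : IsTwist (Gamma0 (L * q)) ((2 * i : ℕ) : ℤ) (φ' : Gamma0 (L * q) →* ℂˣ) v')
    (h : SConj σ v v') :
    ∃ C : ℂ, C ^ n = 1 ∧ SConj σ (wForm hM ((2 * i : ℕ) : ℤ) v)
      (C • wForm hM ((2 * i : ℕ) : ℤ) v') := by
  have : NeZero (L * q) := ⟨mul_ne_zero (NeZero.ne L) hq.out.ne_zero⟩
  have hG := ES.goodLevel_Gamma0 (L * q)
  set Lv := isLevel_gamma0 hM hLM
  obtain ⟨c, hc, hc'⟩ := h.at_level (r := 12 * (L * q)) (NeZero.ne _)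
  obtain ⟨C, hC, d, hd, hd'⟩ :=
    PSEMI.exists_wForm_conj_exp hM Lv hG (qM_dvd hM12) hv hv0 hv' hc hc'
  exact ⟨C, hC, SConj.of_level hG.T_mem (r := 12 * (L * q)) (Lv.isParChar_wHom hM φ.2.2)
    (Lv.isTwist_wForm hM hv) (Lv.isParChar_wHom hM φ'.2.2)
    ((Lv.isTwist_wForm hM hv').smul C) hd hd'⟩

/-- A pair of conjugate forms for a character. -/
structure IsPair (σ : ℂ ≃+* ℂ) (φ : parGroup (Gamma0 (L * q)) n) (i : ℕ) (v v' : ℍ → ℂ) : Prop where
  twist : IsTwist (Gamma0 (L * q)) ((2 * i : ℕ) : ℤ) (φ : Gamma0 (L * q) →* ℂˣ) v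
  ne_zero : v ≠ 0
  twist' : IsTwist (Gamma0 (L * q)) ((2 * i : ℕ) : ℤ)
    (conjChar (ES.goodLevel_Gamma0 (L * q)) σ φ : Gamma0 (L * q) →* ℂˣ) v'
  conj : SConj σ v v'

theorem exists_isPair (σ : ℂ ≃+* ℂ) (φ : parGroup (Gamma0 (L * q)) n) :
    ∃ (i : ℕ) (v v' : ℍ → ℂ), IsPair σ φ i v v' := by
  obtain ⟨i, v, v', h1, h2, h3, h4⟩ := exists_conj_pair (ES.goodLevel_Gamma0 (L * q)) σ φ
  exact ⟨i, v, v', h1, h2, h3, h4⟩

include hLM hM12 in
theorem exists_kappa (σ : ℂ ≃+* ℂ) (φ : parGroup (Gamma0 (L * q)) n) :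
    ∃ C : ℂ, C ^ n = 1 ∧ ∀ (i : ℕ) (v v' : ℍ → ℂ), IsPair σ φ i v v' →
      SConj σ (wForm hM ((2 * i : ℕ) : ℤ) v) (C • wForm hM ((2 * i : ℕ) : ℤ) v') := by
  obtain ⟨l, u, u', hu⟩ := exists_isPair σ φ
  obtain ⟨C₀, hC₀, hu1⟩ := exists_wForm_conj hM hLM hM12 hu.twist hu.ne_zero hu.twist' hu.conj
  refine ⟨C₀, hC₀, fun i v v' hv => ?_⟩
  obtain ⟨C, hC, hv1⟩ := exists_wForm_conj hM hLM hM12 hv.twist hv.ne_zero hv.twist' hv.conj
  suffices e : C = C₀ by rw [← e]; exact hv1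
  rcases Nat.exists_eq_add_one_of_ne_zero (NeZero.ne n) with ⟨j, hj⟩
  rcases j with - | j
  · rw [show n = 1 from hj, pow_one] at hC hC₀
    rw [hC, hC₀]
  have hn : n = j + 2 := hj
  set φ' := conjChar (ES.goodLevel_Gamma0 (L * q)) σ φ
  have hw : ((2 * (i + (j + 1) * l) : ℕ) : ℤ) =
      ((2 * i : ℕ) : ℤ) + ((j + 1 : ℕ) : ℤ) * ((2 * l : ℕ) : ℤ) := by push_cast; ring
  have ht : ∀ ψ : parGroup (Gamma0 (L * q)) n,
      (ψ : Gamma0 (L * q) →* ℂˣ) * (ψ : Gamma0 (L * q) →* ℂˣ) ^ (j + 1) =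
        ((1 : parGroup (Gamma0 (L * q)) 1) : Gamma0 (L * q) →* ℂˣ) := fun ψ => by
    refine MonoidHom.ext fun x => ?_
    have h := DFunLike.congr_fun ψ.2.1 x
    have hp : ∀ a : ℂˣ, a ^ n = a * a ^ (j + 1) := fun a => by rw [← pow_succ', ← hn]
    rw [MonoidHom.pow_apply, hp, MonoidHom.one_apply] at h
    exact h
  have hx := hv.twist.mul (hu.twist.pow (j + 1))
  have hx' := hv.twist'.mul (hu.twist'.pow (j + 1))
  rw [ht, ← hw] at hx hx'
  have hx0 : v * u ^ (j + 1) ≠ 0 :=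
    ES.mul_ne_zero_of_mdiff (hu.twist.pow (j + 1)).mdiff hv.twist.mdiff hv.ne_zero fun h0 => by
      obtain ⟨τ, hτ⟩ := Function.ne_iff.mp hu.ne_zero
      exact pow_ne_zero (j + 1) hτ (by simpa using congrFun h0 τ)
  obtain ⟨C₁, hC₁, h1⟩ := exists_wForm_conj hM hLM hM12 hx hx0 hx' (hv.conj.mul (hu.conj.pow _))
  rw [pow_one] at hC₁
  have h2 := hv1.mul (hu1.pow (j + 1))
  rw [hw, PSEMI.wForm_mul, wForm_pow, PSEMI.wForm_mul, wForm_pow, hC₁, one_smul] at h1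
  have e := h1.unique h2
  have hne : wForm hM ((2 * i : ℕ) : ℤ) v' * wForm hM ((2 * l : ℕ) : ℤ) u' ^ (j + 1) ≠ 0 := by
    rw [← wForm_pow, ← PSEMI.wForm_mul]
    exact wForm_ne_zero hM ((hv.conj.mul (hu.conj.pow _)).ne_zero hx0)
  obtain ⟨τ, hτ⟩ := Function.ne_iff.mp hne
  have eτ := congrFun e τ
  simp only [Pi.mul_apply, Pi.smul_apply, Pi.pow_apply, smul_eq_mul, Pi.zero_apply] at eτ hτ
  have h3 : C * C₀ ^ (j + 1) = 1 := by
    refine mul_right_cancel₀ hτ ?_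
    rw [one_mul, mul_pow] at *
    linear_combination -eτ
  calc C = C * C₀ ^ n := by rw [hC₀, mul_one]
    _ = C₀ * (C * C₀ ^ (j + 1)) := by rw [hn]; ring
    _ = C₀ := by rw [h3, mul_one]

/-- The constant `κ`. -/
def kappa (σ : ℂ ≃+* ℂ) (φ : parGroup (Gamma0 (L * q)) n) : ℂ :=
  (exists_kappa hM hLM hM12 σ φ).choose

/-- `κ` is an `n`-th root of unity. -/
theorem kappa_pow (σ : ℂ ≃+* ℂ) (φ : parGroup (Gamma0 (L * q)) n) :
    kappa hM hLM hM12 σ φ ^ n = 1 := (exists_kappa hM hLM hM12 σ φ).choose_spec.1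

theorem kappa_ne_zero (σ : ℂ ≃+* ℂ) (φ : parGroup (Gamma0 (L * q)) n) :
    kappa hM hLM hM12 σ φ ≠ 0 := fun h => by
  have := kappa_pow hM hLM hM12 σ φ
  rw [h, zero_pow (NeZero.ne n)] at this
  exact zero_ne_one this

/-- **The defining property of `κ`.** -/
theorem kappa_spec {σ : ℂ ≃+* ℂ} {φ : parGroup (Gamma0 (L * q)) n} {i : ℕ} {v v' : ℍ → ℂ}
    (h : IsPair σ φ i v v') :
    SConj σ (wForm hM ((2 * i : ℕ) : ℤ) v)
      (kappa hM hLM hM12 σ φ • wForm hM ((2 * i : ℕ) : ℤ) v') :=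
  (exists_kappa hM hLM hM12 σ φ).choose_spec.2 i v v' h

/-- The value of `κ` read from one pair. -/
theorem kappa_eq {σ : ℂ ≃+* ℂ} {φ : parGroup (Gamma0 (L * q)) n} {i : ℕ} {v v' : ℍ → ℂ} {C : ℂ}
    (h : IsPair σ φ i v v')
    (hC : SConj σ (wForm hM ((2 * i : ℕ) : ℤ) v) (C • wForm hM ((2 * i : ℕ) : ℤ) v')) :
    kappa hM hLM hM12 σ φ = C := by
  have e := (kappa_spec hM hLM hM12 h).unique hC
  have hne : wForm hM ((2 * i : ℕ) : ℤ) v' ≠ 0 := wForm_ne_zero hM (h.conj.ne_zero h.ne_zero)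
  obtain ⟨τ, hτ⟩ := Function.ne_iff.mp hne
  exact mul_right_cancel₀ hτ (congrFun e τ)

/-- `κ` is multiplicative. -/
theorem kappa_mul (σ : ℂ ≃+* ℂ) (φ ψ : parGroup (Gamma0 (L * q)) n) :
    kappa hM hLM hM12 σ (φ * ψ) = kappa hM hLM hM12 σ φ * kappa hM hLM hM12 σ ψ := by
  obtain ⟨i, v, v', hv⟩ := exists_isPair σ φ
  obtain ⟨l, u, u', hu⟩ := exists_isPair σ ψ
  have hw : ((2 * (i + l) : ℕ) : ℤ) = ((2 * i : ℕ) : ℤ) + ((2 * l : ℕ) : ℤ) := by push_cast; ring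
  have hp : IsPair σ (φ * ψ) (i + l) (v * u) (v' * u') :=
    { twist := by rw [hw]; exact hv.twist.mul hu.twist
      ne_zero := ES.mul_ne_zero_of_mdiff hu.twist.mdiff hv.twist.mdiff hv.ne_zero hu.ne_zero
      twist' := by
        rw [hw, ES.conjChar_mul]
        exact hv.twist'.mul hu.twist'
      conj := hv.conj.mul hu.conj }
  refine kappa_eq hM hLM hM12 hp ?_
  rw [hw, PSEMI.wForm_mul, PSEMI.wForm_mul, ← smul_mul_smul_comm]
  exact (kappa_spec hM hLM hM12 hv).mul (kappa_spec hM hLM hM12 hu)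

/-- `κ` as a homomorphism. -/
def kappaHom (σ : ℂ ≃+* ℂ) : parGroup (Gamma0 (L * q)) n →* ℂ where
  toFun := kappa hM hLM hM12 σ
  map_one' := by
    refine mul_left_cancel₀ (kappa_ne_zero hM hLM hM12 σ (1 : parGroup (Gamma0 (L * q)) n)) ?_
    rw [← kappa_mul, mul_one, mul_one]
  map_mul' := kappa_mul hM hLM hM12 σ

/-- The homomorphism `κ`, unfolded. -/
theorem kappaHom_apply (σ : ℂ ≃+* ℂ) (φ : parGroup (Gamma0 (L * q)) n) :
    kappaHom hM hLM hM12 σ φ = kappa hM hLM hM12 σ φ := rfl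

include hM12 in
/-- The involution commutes with conjugation. -/
theorem conjChar_wAut (σ : ℂ ≃+* ℂ) (φ : parGroup (Gamma0 (L * q)) n) :
    conjChar (ES.goodLevel_Gamma0 (L * q)) σ (wAut hM hLM n φ) =
      wAut hM hLM n (conjChar (ES.goodLevel_Gamma0 (L * q)) σ φ) := by
  obtain ⟨i, v, v', hv⟩ := exists_isPair σ φ
  exact (kappa_spec hM hLM hM12 hv).conjChar_eq _ (isTwist_wAut hM hLM hv.twist)
    (wForm_ne_zero hM hv.ne_zero) ((isTwist_wAut hM hLM hv.twist').smul _)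

/-- **`κ ∘ T_ℓ = κ ^ (ℓ + 1)` on fixed characters.** -/
theorem kappa_heckeChar {ℓ : ℕ} [hℓ : Fact ℓ.Prime] (hℓN : ¬ ℓ ∣ L * q) (σ : ℂ ≃+* ℂ)
    (hσ : ∀ z : ℂ, z ^ n = 1 → σ z = z) (φ : parGroup (Gamma0 (L * q)) n)
    (hφ : conjChar (ES.goodLevel_Gamma0 (L * q)) σ φ = φ) :
    kappa hM hLM hM12 σ ⟨heckeChar (L * q) hℓ.out φ.1, ES.heckeChar_mem_parGroup hℓ.out φ.2⟩ =
      kappa hM hLM hM12 σ φ ^ (ℓ + 1) := by
  classical
  have : NeZero ℓ := ⟨hℓ.out.ne_zero⟩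
  have : NeZero (L * q) := ⟨mul_ne_zero (NeZero.ne L) hq.out.ne_zero⟩
  set D := Period.transferDataT hℓN
  obtain ⟨i, v, v', hv⟩ := exists_isPair σ φ
  set k : ℤ := ((2 * i : ℕ) : ℤ) with hk
  set card := Fintype.card (OnePoint (ZMod ℓ))
  have hcard : card = ℓ + 1 := by
    show Fintype.card (Option (ZMod ℓ)) = ℓ + 1
    rw [Fintype.card_option, ZMod.card]
  set ψ : parGroup (Gamma0 (L * q)) n :=
    ⟨heckeChar (L * q) hℓ.out φ.1, ES.heckeChar_mem_parGroup hℓ.out φ.2⟩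
  have hψ : conjChar (ES.goodLevel_Gamma0 (L * q)) σ ψ = ψ := by
    refine (ES.conjChar_heckeChar_eq hℓ.out σ φ).trans (Subtype.ext ?_)
    show heckeChar (L * q) hℓ.out (conjChar (ES.goodLevel_Gamma0 (L * q)) σ φ).1 = _
    rw [hφ]
  have hψ1 : (ψ : Gamma0 (L * q) →* ℂˣ) = charOp D (φ : Gamma0 (L * q) →* ℂˣ) :=
    ES.heckeChar_of_not_dvd hℓN _
  have hv' : IsTwist (Gamma0 (L * q)) k (φ : Gamma0 (L * q) →* ℂˣ) v' := by
    have := hv.twist'; rwa [hφ] at this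
  have hw : ((2 * (i * card) : ℕ) : ℤ) = k * card := by rw [hk]; push_cast; ring
  set c := transferConst ℓ i
  have hc : c ≠ 0 := transferConst_ne_zero hℓ.out.ne_zero i
  have hp : IsPair σ ψ (i * card) (c • transferFun D k v) (c • transferFun D k v') :=
    { twist := by
        rw [hw, hψ1]
        exact (hv.twist.transfer D (ES.transferDataT_int hℓN)).smul c
      ne_zero := smul_ne_zero hc (ES.transferFun_ne_zero D hv.twist.mdiff hv.ne_zero)
      twist' := by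
        rw [hψ, hw, hψ1]
        exact (hv'.transfer D (ES.transferDataT_int hℓN)).smul c
      conj := hv.conj.transfer hℓN φ.2.2 φ.2.2 hv.twist hv' }
  refine kappa_eq hM hLM hM12 hp ?_
  set κ := kappa hM hLM hM12 σ φ
  have hwv : IsTwist (Gamma0 (L * q)) k (wAut hM hLM n φ : Gamma0 (L * q) →* ℂˣ) (wForm hM k v) :=
    isTwist_wAut hM hLM hv.twist
  have hwv' : IsTwist (Gamma0 (L * q)) k (wAut hM hLM n φ : Gamma0 (L * q) →* ℂˣ)
      (κ • wForm hM k v') := (isTwist_wAut hM hLM hv').smul κ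
  have h1 := (kappa_spec hM hLM hM12 hv).transfer hℓN (wAut hM hLM n φ).2.2
    (wAut hM hLM n φ).2.2 hwv hwv'
  have hsm : transferFun D k (κ • wForm hM k v') = κ ^ card • transferFun D k (wForm hM k v') := by
    funext τ
    simp [transferFun, ModularForm.smul_slash, UpperHalfPlane.σ,
      D.det_pos, Finset.prod_mul_distrib,
      Finset.card_univ, card]
  have e2 : transferFun D k (wForm hM k v) =
      moveVal hM hLM hℓN φ.1 • wForm hM (k * card) (transferFun D k v) :=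
    transferFun_wForm hM hLM hℓN hv.twist
  have e2' : transferFun D k (wForm hM k v') =
      moveVal hM hLM hℓN φ.1 • wForm hM (k * card) (transferFun D k v') :=
    transferFun_wForm hM hLM hℓN hv'
  set m := moveVal hM hLM hℓN φ.1
  have hm : σ m = m := by
    refine hσ m ?_
    simp only [m, moveVal, ← Finset.prod_pow]
    refine Finset.prod_eq_one fun x _ => ?_
    rw [← Units.val_pow_eq_pow_val, ← MonoidHom.pow_apply, φ.2.1]
    rfl
  have hm0 : m ≠ 0 := moveVal_ne_zero hM hLM hℓN _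
  rw [hsm, e2, e2'] at h1
  have h2 := h1.smul m⁻¹
  rw [map_inv₀, hm] at h2
  rw [hw, wForm_smul', wForm_smul']
  have e3 : ∀ X : ℍ → ℂ, m⁻¹ • c • m • X = c • X := fun X => by
    rw [smul_comm c m, smul_smul m⁻¹, inv_mul_cancel₀ hm0, one_smul]
  have e4 : ∀ X : ℍ → ℂ, m⁻¹ • c • κ ^ card • m • X = κ ^ (ℓ + 1) • c • X := fun X => by
    rw [smul_comm (κ ^ card) m, e3, hcard, smul_comm]
  rwa [e3, e4] at h2

end FermatAgent.BAD
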